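import Fermat.Agent.H21.EsC.Interfaces
import Fermat.Prelude.Def_FLTPrelim_ModularRep
import Fermat.Agent.H74.QCoeffBasics
import Fermat.Agent.H22.Main
import Fermat.Agent.H36.S22_OfIntegral

/-!
# P-ES / ES-C3-EIG (helper50): a normalised eigenform is a Hecke eigenvector

`g.IsNormalizedEigenform` (relations between `q`-coefficients) implies `T_ℓ g = a_ℓ • g` for
`ℓ ∤ N`, and `a_ℓ` is an algebraic integer (finiteness of the Hecke algebra, S22).
-/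

set_option autoImplicit false

open CongruenceSubgroup ModularFormClass Polynomial

namespace Fermat.Agent.H50

variable {N : ℕ}

/-- The coefficient identity `a_{nℓ} + [ℓ ∣ n] ℓ a_{n/ℓ} = a_ℓ a_n` of a normalised eigenform. -/
theorem eigen_coeff_identity (g : CuspForm (Gamma0 N) 2) (hg : g.IsNormalizedEigenform)
    {ℓ : ℕ} (hℓ : ℓ.Prime) (hℓN : ¬ ℓ ∣ N) (n : ℕ) :
    qCoeff g (n * ℓ) + (if ℓ ∣ n then (ℓ : ℂ) * qCoeff g (n / ℓ) else 0) =
      qCoeff g ℓ * qCoeff g n := by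
  rcases Nat.eq_zero_or_pos n with rfl | hn
  · simp [Fermat.Agent.H74.qCoeff_zero_cusp]
  obtain ⟨r, m, hm, rfl⟩ := Nat.exists_eq_pow_mul_and_not_dvd hn.ne' ℓ hℓ.ne_one
  have hcop : ∀ j, (ℓ ^ j).Coprime m := fun j =>
    Nat.Coprime.pow_left j ((Nat.Prime.coprime_iff_not_dvd hℓ).mpr hm)
  cases r with
  | zero =>
    have h1 : ¬ ℓ ∣ ℓ ^ 0 * m := by simpa using hm
    rw [if_neg h1]
    have e : ℓ ^ 0 * m * ℓ = ℓ ^ 1 * m := by ring
    rw [e, hg.qCoeff_mul_of_coprime _ _ (hcop 1), pow_one, pow_zero, one_mul, add_zero]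
  | succ r =>
    have h1 : ℓ ∣ ℓ ^ (r + 1) * m := Dvd.dvd.mul_right (dvd_pow_self ℓ (Nat.succ_ne_zero r)) m
    rw [if_pos h1]
    have e1 : ℓ ^ (r + 1) * m * ℓ = ℓ ^ (r + 2) * m := by ring
    have e2 : ℓ ^ (r + 1) * m / ℓ = ℓ ^ r * m := by
      have : ℓ ^ (r + 1) * m = ℓ ^ r * m * ℓ := by ring
      rw [this]
      exact Nat.mul_div_cancel _ hℓ.pos
    rw [e1, e2, hg.qCoeff_mul_of_coprime _ _ (hcop (r + 2)),
      hg.qCoeff_mul_of_coprime _ _ (hcop r), hg.qCoeff_mul_of_coprime _ _ (hcop (r + 1)),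
      hg.qCoeff_prime_pow_of_not_dvd ℓ r hℓ hℓN]
    ring

/-- A normalised eigenform is an eigenvector of `T_ℓ` with eigenvalue `a_ℓ`. -/
theorem heckeTLin_eq_qCoeff_smul (g : CuspForm (Gamma0 N) 2) (hg : g.IsNormalizedEigenform)
    {ℓ : ℕ} (hℓ : ℓ.Prime) (hℓN : ¬ ℓ ∣ N) :
    CuspForm.heckeTLin 2 hℓ hℓN g = qCoeff g ℓ • g := by
  rw [← sub_eq_zero]
  apply Fermat.Agent.H74.eq_zero_of_forall_qCoeff_eq_zero
  intro n
  have e : CuspForm.heckeTLin 2 hℓ hℓN g - qCoeff g ℓ • g =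
      CuspForm.heckeTLin 2 hℓ hℓN g + (-(qCoeff g ℓ)) • g := by
    rw [neg_smul, sub_eq_add_neg]
  rw [e, Fermat.Agent.H74.qCoeff_add_cusp, Fermat.Agent.H74.qCoeff_smul_cusp,
    Fermat.Agent.H74.qCoeff_heckeTLin]
  have h := eigen_coeff_identity g hg hℓ hℓN n
  have hpow : ((ℓ : ℂ) ^ ((2 : ℤ) - 1)) = (ℓ : ℂ) := by norm_num
  rw [hpow, h]
  ring

/-- The eigenvalue `a_ℓ` of a normalised eigenform is an algebraic integer. -/
theorem isIntegral_qCoeff_prime [NeZero N] (g : CuspForm (Gamma0 N) 2)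
    (hg : g.IsNormalizedEigenform) {ℓ : ℕ} (hℓ : ℓ.Prime) (hℓN : ¬ ℓ ∣ N) :
    IsIntegral ℤ (qCoeff g ℓ) := by
  have hfin : Module.Finite ℤ (CuspForm.heckeAlgebra N 2 (∅ : Set ℕ)) :=
    Fermat.Agent.H36.heckeAlgebra_finite_of_hasIntegralStructure N 2 ∅
      (Fermat.Agent.H22.hasIntegralStructure N 2)
  set T : CuspForm.heckeAlgebra N 2 (∅ : Set ℕ) :=
    CuspForm.heckeAlgebra.T hℓ hℓN (Set.notMem_empty ℓ) with hT
  have hTint : IsIntegral ℤ T := Algebra.IsIntegral.isIntegral T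
  obtain ⟨P, hPmonic, hP⟩ := hTint
  refine ⟨P, hPmonic, ?_⟩
  -- transport to the endomorphism
  have h1 : aeval (CuspForm.heckeTLin 2 hℓ hℓN) P = 0 := by
    have h2 : aeval T P = 0 := by rw [aeval_def]; exact hP
    have h3 := congrArg (Subalgebra.val (CuspForm.heckeAlgebra N 2 (∅ : Set ℕ))) h2
    rw [← Polynomial.aeval_algHom_apply, map_zero] at h3
    exact h3
  have heig : Module.End.HasEigenvector (CuspForm.heckeTLin 2 hℓ hℓN) (qCoeff g ℓ) g :=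
    ⟨Module.End.mem_eigenspace_iff.mpr (heckeTLin_eq_qCoeff_smul g hg hℓ hℓN), hg.ne_zero⟩
  have h4 : aeval (CuspForm.heckeTLin 2 hℓ hℓN) (P.map (algebraMap ℤ ℂ)) = 0 := by
    rw [aeval_map_algebraMap]; exact h1
  have h5 := Module.End.aeval_apply_of_hasEigenvector (p := P.map (algebraMap ℤ ℂ)) heig
  rw [h4, LinearMap.zero_apply] at h5
  have h6 : (P.map (algebraMap ℤ ℂ)).eval (qCoeff g ℓ) = 0 := by
    rcases smul_eq_zero.mp h5.symm with h | h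
    · exact h
    · exact absurd h hg.ne_zero
  rw [eval_map] at h6
  exact h6

/-- **ES-C3-EIG**. -/
theorem eigenformHecke : Fermat.Agent.H21.EsC.EigenformHeckeStatement := by
  intro N _ g hg ℓ hℓ hℓN
  exact ⟨heckeTLin_eq_qCoeff_smul g hg hℓ hℓN, isIntegral_qCoeff_prime g hg hℓ hℓN⟩

end Fermat.Agent.H50
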